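/-
S59lib / HS6 / Alg  (helper4)

**HS6-b : the congruence module of a free Hecke module with a perfect self-adjoint pairing.**

`π : T → 𝒪` an augmented `𝒪`-algebra, `𝔭 = ker π`, `η = π (Ann 𝔭)` (`NumCrit.congIdeal π`);  `M` a `T`-module which is
FREE of rank `d` over `T`, with an `𝒪`-bilinear pairing `B` which is `T`-self-adjoint and perfect over `𝒪`;
`Λ = M[𝔭]` (`N3.tors`), `Λ^⊥` its orthogonal (`N3.rorth`).  Then

* `rorth_tors_eq_smul` : `Λ^⊥ = 𝔭 M`;
* `quotEquiv`          : `M ⧸ (Λ + Λ^⊥) ≃ (𝒪 ⧸ η)^d`;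
* **`length_cong_tors_eq`** : `length (M ⧸ (Λ ⊔ Λ^⊥)) = d * length (𝒪 ⧸ η)`  (no Gorenstein hypothesis is needed: the
  perfect pairing on the free module `M` replaces it);
* `finrank_tors_eq`    : `rank_𝒪 Λ = d` when `η ≠ 0` and `T` is `𝒪`-torsion free (`𝒪` a PID), hence
  **`length_cong_tors_eq_finrank`** : `length (M ⧸ (Λ ⊔ Λ^⊥)) = rank Λ * length (𝒪 ⧸ η)` — the lower bound matching
  helper2's upper bound `N3.length_cong_tors_le`.
-/
import Mathlib
import Fermat.Agent.S59lib.N3.Abs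
import Fermat.Agent.S59lib.NumCrit.Gor

set_option autoImplicit false
set_option linter.unusedSectionVars false
set_option linter.unusedVariables false
set_option linter.style.haveILetI false

noncomputable section

namespace Fermat.Agent.S59lib.HS6

open Module Fermat.Agent.S59lib.N3 Fermat.Agent.S59lib.NumCrit

/-! ### right-perfect ⇒ perfect, for finite free modules -/

section Perfect

variable {𝒪 : Type*} [CommRing 𝒪] {M : Type*} [AddCommGroup M] [Module 𝒪 M]
  [Module.Finite 𝒪 M] [Module.Free 𝒪 M]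

/-- a right-perfect pairing on a finite free module is perfect: `x ↦ B x ·` is bijective -/
theorem bijective_of_right_perfect {B : M →ₗ[𝒪] M →ₗ[𝒪] 𝒪}
    (hperf : ∀ f : M →ₗ[𝒪] 𝒪, ∃ m, ∀ x, B x m = f x) : Function.Bijective ⇑B := by
  classical
  -- `β : y ↦ B · y` is surjective, hence bijective
  have hβs : Function.Surjective ⇑B.flip := by
    intro f
    obtain ⟨m, hm⟩ := hperf f
    exact ⟨m, LinearMap.ext fun x => hm x⟩
  let b := Module.Free.chooseBasis 𝒪 M
  let D : Dual 𝒪 M ≃ₗ[𝒪] M := b.toDualEquiv.symm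
  have hinj : Function.Injective ⇑B.flip := by
    have h1 : Function.Surjective ⇑((D : Dual 𝒪 M →ₗ[𝒪] M) ∘ₗ B.flip) := by
      rw [LinearMap.coe_comp]
      exact D.surjective.comp hβs
    have h2 := OrzechProperty.injective_of_surjective_endomorphism _ h1
    rw [LinearMap.coe_comp] at h2
    exact Function.Injective.of_comp h2
  let β : M ≃ₗ[𝒪] Dual 𝒪 M := LinearEquiv.ofBijective B.flip ⟨hinj, hβs⟩
  have h3 : ⇑B = ⇑(β.dualMap) ∘ ⇑(Dual.eval 𝒪 M) := by
    funext x
    apply LinearMap.ext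
    intro y
    rfl
  rw [h3]
  exact β.dualMap.bijective.comp (bijective_dual_eval 𝒪 M)

end Perfect

/-! ### the orthogonal of `M[𝔭]` -/

section Core

variable {𝒪 : Type*} [CommRing 𝒪] [IsDomain 𝒪] [IsPrincipalIdealRing 𝒪]
  {M : Type*} [AddCommGroup M] [Module 𝒪 M]
  {T : Type*} [CommRing T] [Algebra 𝒪 T] [Module T M] [IsScalarTower 𝒪 T M]
  (π : T →ₐ[𝒪] 𝒪) {d : ℕ} (e : M ≃ₗ[T] (Fin d → T))

/-- the `𝒪`-submodule `𝔭 M` in coordinates: all coordinates lie in `𝔭 = ker π` -/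
def pM : Submodule 𝒪 M where
  carrier := {m | ∀ i, π (e m i) = 0}
  zero_mem' := by intro i; simp
  add_mem' := by
    intro a b ha hb i
    rw [map_add, Pi.add_apply, map_add, ha i, hb i, add_zero]
  smul_mem' := by
    intro c a ha i
    have h1 : e (c • a) = c • e a := by
      rw [← algebraMap_smul T c a, map_smul, algebraMap_smul]
    rw [h1, Pi.smul_apply, map_smul, ha i, smul_zero]

theorem mem_pM {m : M} : m ∈ pM π e ↔ ∀ i, π (e m i) = 0 := Iff.rfl

theorem e_smul (c : 𝒪) (a : M) : e (c • a) = c • e a := by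
  rw [← algebraMap_smul T c a, map_smul, algebraMap_smul]

/-- `M[𝔭]` in coordinates: all coordinates lie in `Ann 𝔭` -/
theorem mem_tors_iff {m : M} :
    m ∈ (tors (RingHom.ker (π : T →+* 𝒪)) : Submodule 𝒪 M) ↔
      ∀ i, ∀ t : T, π t = 0 → t * e m i = 0 := by
  rw [mem_tors]
  constructor
  · intro h i t ht
    have h1 := h t ht
    have h2 : e (t • m) = 0 := by rw [h1, map_zero]
    rw [map_smul] at h2
    have := congrFun h2 i
    simpa using this
  · intro h t ht
    apply e.injective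
    rw [map_smul, map_zero]
    funext i
    rw [Pi.smul_apply, smul_eq_mul, Pi.zero_apply]
    exact h i t ht

variable {B : M →ₗ[𝒪] M →ₗ[𝒪] 𝒪}

/-- `𝔭 M ⊆ M[𝔭]^⊥` -/
theorem pM_le_rorth (hadj : ∀ (t : T) (x y : M), B (t • x) y = B x (t • y)) :
    pM π e ≤ rorth B (tors (RingHom.ker (π : T →+* 𝒪)) : Submodule 𝒪 M) := by
  intro m hm x hx
  -- `m = ∑ i, (e m i) • e.symm (δ_i)`
  have h1 : m = ∑ i, (e m i) • e.symm (Pi.single i 1) := by
    apply e.injective
    rw [map_sum]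
    simp_rw [map_smul, LinearEquiv.apply_symm_apply]
    funext j
    rw [Finset.sum_apply]
    simp [Pi.single_apply]
  rw [h1, map_sum]
  refine Finset.sum_eq_zero fun i _ => ?_
  rw [← hadj]
  have h2 : (e m i) • x = 0 := hx _ (hm i)
  rw [h2, LinearMap.map_zero₂]

/-- `M[𝔭]^⊥ ⊆ 𝔭 M`, for a perfect pairing -/
theorem rorth_le_pM (hadj : ∀ (t : T) (x y : M), B (t • x) y = B x (t • y))
    (hbij : Function.Bijective ⇑B) :
    rorth B (tors (RingHom.ker (π : T →+* 𝒪)) : Submodule 𝒪 M) ≤ pM π e := by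
  intro m hm i
  -- the functional `m' ↦ π (e m' i)`
  let f : M →ₗ[𝒪] 𝒪 :=
    { toFun := fun m' => π (e m' i)
      map_add' := fun a b => by rw [map_add, Pi.add_apply, map_add]
      map_smul' := fun c a => by
        rw [e_smul, Pi.smul_apply, map_smul, RingHom.id_apply] }
  obtain ⟨x, hx⟩ := hbij.2 f
  have hxm : ∀ m', B x m' = π (e m' i) := fun m' => by rw [hx]; rfl
  have hxΛ : x ∈ (tors (RingHom.ker (π : T →+* 𝒪)) : Submodule 𝒪 M) := by
    intro t ht
    apply hbij.1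
    rw [map_zero]
    apply LinearMap.ext
    intro m'
    rw [hadj, hxm, map_smul, Pi.smul_apply, smul_eq_mul, map_mul, LinearMap.zero_apply]
    have : π t = 0 := ht
    rw [this, zero_mul]
  have := hm x hxΛ
  rw [hxm] at this
  exact this

/-- **`M[𝔭]^⊥ = 𝔭 M`** -/
theorem rorth_tors_eq_pM (hadj : ∀ (t : T) (x y : M), B (t • x) y = B x (t • y))
    (hbij : Function.Bijective ⇑B) :
    rorth B (tors (RingHom.ker (π : T →+* 𝒪)) : Submodule 𝒪 M) = pM π e :=
  le_antisymm (rorth_le_pM π e hadj hbij) (pM_le_rorth π e hadj)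

/-! ### the quotient `M ⧸ (M[𝔭] + 𝔭 M)` -/

/-- the map `M → (𝒪 ⧸ η)^d`, `m ↦ (π (e m i) mod η)_i` -/
def toQuot : M →ₗ[𝒪] (Fin d → 𝒪 ⧸ congIdeal π) where
  toFun m i := Ideal.Quotient.mk (congIdeal π) (π (e m i))
  map_add' a b := by
    funext i
    rw [map_add, Pi.add_apply, map_add, map_add, Pi.add_apply]
  map_smul' c a := by
    funext i
    rw [e_smul, Pi.smul_apply, map_smul, RingHom.id_apply, Pi.smul_apply, smul_eq_mul, map_mul]
    rfl

theorem toQuot_apply (m : M) (i : Fin d) :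
    toQuot π e m i = Ideal.Quotient.mk (congIdeal π) (π (e m i)) := rfl

theorem toQuot_surjective : Function.Surjective (toQuot π e) := by
  intro v
  have h : ∀ i, ∃ c : 𝒪, Ideal.Quotient.mk (congIdeal π) c = v i :=
    fun i => Ideal.Quotient.mk_surjective (v i)
  choose c hc using h
  refine ⟨e.symm (fun i => algebraMap 𝒪 T (c i)), ?_⟩
  funext i
  rw [toQuot_apply, LinearEquiv.apply_symm_apply, AlgHom.commutes, Algebra.algebraMap_self_apply]
  exact hc i

theorem ker_toQuot :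
    LinearMap.ker (toQuot π e) =
      (tors (RingHom.ker (π : T →+* 𝒪)) : Submodule 𝒪 M) ⊔ pM π e := by
  apply le_antisymm
  · intro m hm
    rw [LinearMap.mem_ker] at hm
    have h1 : ∀ i, ∃ t : T, (∀ x : T, π x = 0 → t * x = 0) ∧ π t = π (e m i) := by
      intro i
      have := congrFun hm i
      rw [toQuot_apply, Pi.zero_apply, Ideal.Quotient.eq_zero_iff_mem] at this
      exact mem_congIdeal.mp this
    choose s hs1 hs2 using h1
    have hsplit : m = e.symm s + (m - e.symm s) := by abel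
    rw [hsplit]
    apply Submodule.add_mem_sup
    · rw [mem_tors_iff π e]
      intro i t ht
      rw [LinearEquiv.apply_symm_apply, mul_comm]
      exact hs1 i t ht
    · intro i
      rw [map_sub, LinearEquiv.apply_symm_apply, Pi.sub_apply, map_sub, hs2 i, sub_self]
  · apply sup_le
    · intro m hm
      rw [LinearMap.mem_ker]
      funext i
      rw [toQuot_apply, Pi.zero_apply, Ideal.Quotient.eq_zero_iff_mem, mem_congIdeal]
      refine ⟨e m i, fun x hx => ?_, rfl⟩
      rw [mul_comm]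
      exact (mem_tors_iff π e).mp hm i x hx
    · intro m hm
      rw [LinearMap.mem_ker]
      funext i
      rw [toQuot_apply, hm i, map_zero, Pi.zero_apply]

/-- `M ⧸ (M[𝔭] + 𝔭 M) ≃ (𝒪 ⧸ η)^d` -/
def quotEquiv' :
    (M ⧸ ((tors (RingHom.ker (π : T →+* 𝒪)) : Submodule 𝒪 M) ⊔ pM π e)) ≃ₗ[𝒪]
      (Fin d → 𝒪 ⧸ congIdeal π) :=
  (Submodule.quotEquivOfEq _ _ (ker_toQuot π e).symm).trans
    ((toQuot π e).quotKerEquivOfSurjective (toQuot_surjective π e))

/-- **`M ⧸ (M[𝔭] + M[𝔭]^⊥) ≃ (𝒪 ⧸ η)^d`** -/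
def quotEquiv (hadj : ∀ (t : T) (x y : M), B (t • x) y = B x (t • y))
    (hbij : Function.Bijective ⇑B) :
    (M ⧸ ((tors (RingHom.ker (π : T →+* 𝒪)) : Submodule 𝒪 M) ⊔
      rorth B (tors (RingHom.ker (π : T →+* 𝒪)) : Submodule 𝒪 M))) ≃ₗ[𝒪]
      (Fin d → 𝒪 ⧸ congIdeal π) :=
  (Submodule.quotEquivOfEq _ _ (by rw [rorth_tors_eq_pM π e hadj hbij])).trans (quotEquiv' π e)

include e in
/-- **HS6-b.**  `length (M ⧸ (M[𝔭] ⊔ M[𝔭]^⊥)) = d * length (𝒪 ⧸ η)` for `M` free of rank `d` over `T` with a perfect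
`T`-self-adjoint pairing. -/
theorem length_cong_tors_eq (hadj : ∀ (t : T) (x y : M), B (t • x) y = B x (t • y))
    (hbij : Function.Bijective ⇑B) :
    Module.length 𝒪 (M ⧸ ((tors (RingHom.ker (π : T →+* 𝒪)) : Submodule 𝒪 M) ⊔
      rorth B (tors (RingHom.ker (π : T →+* 𝒪)) : Submodule 𝒪 M))) =
      d * Module.length 𝒪 (𝒪 ⧸ congIdeal π) := by
  rw [(quotEquiv π e hadj hbij).length_eq, Module.length_pi]
  simp

/-! ### the rank of `M[𝔭]` -/

section Rank

variable [Module.IsTorsionFree 𝒪 T]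

/-- `Ann 𝔭 ∩ 𝔭 = 0` when `η ≠ 0` -/
theorem eq_zero_of_ann_of_ker {s₀ : T} (hs₀ : ∀ x : T, π x = 0 → s₀ * x = 0) (hc : π s₀ ≠ 0)
    {x : T} (hx : ∀ y : T, π y = 0 → x * y = 0) (hπx : π x = 0) : x = 0 := by
  have h1 : s₀ * x = 0 := hs₀ x hπx
  have h2 : x * (s₀ - algebraMap 𝒪 T (π s₀)) = 0 := by
    apply hx
    rw [map_sub, AlgHom.commutes, Algebra.algebraMap_self_apply, sub_self]
  have h3 : π s₀ • x = 0 := by
    rw [Algebra.smul_def]
    linear_combination h1 - h2
  exact (smul_eq_zero_iff_right hc).mp h3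

/-- the parametrisation `𝒪^d → M[𝔭]`, `a ↦ e⁻¹ (a_i s₀)_i` -/
def param (s₀ : T) : (Fin d → 𝒪) →ₗ[𝒪] M where
  toFun a := e.symm (fun i => a i • s₀)
  map_add' a b := by
    rw [← map_add]
    congr 1
    funext i
    rw [Pi.add_apply, Pi.add_apply, add_smul]
  map_smul' c a := by
    rw [RingHom.id_apply, ← algebraMap_smul T c (e.symm _), ← map_smul]
    congr 1
    funext i
    rw [Pi.smul_apply, Pi.smul_apply, smul_eq_mul, algebraMap_smul, mul_smul]

theorem param_apply (s₀ : T) (a : Fin d → 𝒪) :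
    param (𝒪 := 𝒪) e s₀ a = e.symm (fun i => a i • s₀) := rfl

theorem param_injective {s₀ : T} (hc : π s₀ ≠ 0) : Function.Injective (param (𝒪 := 𝒪) e s₀) := by
  intro a b hab
  rw [param_apply, param_apply] at hab
  have h1 := e.symm.injective hab
  funext i
  have h2 := congrArg π (congrFun h1 i)
  rw [map_smul, map_smul, smul_eq_mul, smul_eq_mul] at h2
  exact mul_right_cancel₀ hc h2

theorem range_param {s₀ : T} (hs₀ : ∀ x : T, π x = 0 → s₀ * x = 0) (hc : π s₀ ≠ 0)
    (hgen : congIdeal π = Ideal.span {π s₀}) :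
    LinearMap.range (param (𝒪 := 𝒪) e s₀) = (tors (RingHom.ker (π : T →+* 𝒪)) : Submodule 𝒪 M) := by
  apply le_antisymm
  · rintro _ ⟨a, rfl⟩
    rw [mem_tors_iff π e]
    intro i t ht
    rw [param_apply, LinearEquiv.apply_symm_apply, mul_smul_comm, mul_comm, hs₀ t ht, smul_zero]
  · intro m hm
    rw [mem_tors_iff π e] at hm
    have h1 : ∀ i, ∃ a : 𝒪, e m i = a • s₀ := by
      intro i
      have h2 : π (e m i) ∈ congIdeal π :=
        mem_congIdeal.mpr ⟨e m i, fun x hx => by rw [mul_comm]; exact hm i x hx, rfl⟩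
      rw [hgen, Ideal.mem_span_singleton'] at h2
      obtain ⟨a, ha⟩ := h2
      refine ⟨a, ?_⟩
      have h3 : e m i - a • s₀ = 0 := by
        apply eq_zero_of_ann_of_ker π hs₀ hc
        · intro y hy
          rw [sub_mul, smul_mul_assoc, hs₀ y hy, smul_zero, sub_zero, mul_comm]
          exact hm i y hy
        · rw [map_sub, map_smul, smul_eq_mul, ha, sub_self]
      exact sub_eq_zero.mp h3
    choose a ha using h1
    refine ⟨a, ?_⟩
    rw [param_apply]
    apply e.injective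
    rw [LinearEquiv.apply_symm_apply]
    funext i
    exact (ha i).symm

include e in
/-- **`rank_𝒪 M[𝔭] = d`** when `η ≠ 0` and `T` is torsion free -/
theorem finrank_tors_eq (hη : congIdeal π ≠ ⊥) :
    Module.finrank 𝒪 (tors (RingHom.ker (π : T →+* 𝒪)) : Submodule 𝒪 M) = d := by
  -- a generator of `η`
  have hgen0 := Ideal.span_singleton_generator (congIdeal π)
  set c := Submodule.IsPrincipal.generator (congIdeal π) with hc
  have hc0 : c ≠ 0 := by
    intro h0
    apply hη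
    rw [← hgen0, h0]
    exact Ideal.span_singleton_eq_bot.mpr rfl
  have hcmem : c ∈ congIdeal π := Submodule.IsPrincipal.generator_mem _
  obtain ⟨s₀, hs₀, hπs₀⟩ := mem_congIdeal.mp hcmem
  have hs₀' : ∀ x : T, π x = 0 → s₀ * x = 0 := hs₀
  have hc' : π s₀ ≠ 0 := by rw [hπs₀]; exact hc0
  have hgen : congIdeal π = Ideal.span {π s₀} := by rw [hπs₀, hgen0]
  rw [← range_param π e hs₀' hc' hgen]
  have h1 := (LinearEquiv.ofInjective (param (𝒪 := 𝒪) e s₀) (param_injective π e hc')).finrank_eq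
  rw [← h1, Module.finrank_pi]
  simp

end Rank

end Core

/-! ### the statement in the shape of `N3.length_cong_tors_le` -/

section Final

variable {𝒪 : Type*} [CommRing 𝒪] [IsDomain 𝒪] [IsPrincipalIdealRing 𝒪]
  {M : Type*} [AddCommGroup M] [Module 𝒪 M] [Module.Finite 𝒪 M] [Module.Free 𝒪 M]
  {T : Type*} [CommRing T] [Algebra 𝒪 T] [Module T M] [IsScalarTower 𝒪 T M]
  {B : M →ₗ[𝒪] M →ₗ[𝒪] 𝒪}

/-- **HS6-b**, with the rank of `M` over `T` : `M` finite free over `T`, right-perfect self-adjoint pairing ⟹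
`length (M ⧸ (M[𝔭] ⊔ M[𝔭]^⊥)) = rank_T M * length (𝒪 ⧸ η)`. -/
theorem length_cong_tors_eq_of_free [Module.Free T M] [Module.Finite T M]
    (hperf : ∀ f : M →ₗ[𝒪] 𝒪, ∃ m, ∀ x, B x m = f x)
    (hadj : ∀ (t : T) (x y : M), B (t • x) y = B x (t • y)) (π : T →ₐ[𝒪] 𝒪) :
    Module.length 𝒪 (M ⧸ ((tors (RingHom.ker (π : T →+* 𝒪)) : Submodule 𝒪 M) ⊔
      rorth B (tors (RingHom.ker (π : T →+* 𝒪)) : Submodule 𝒪 M))) =
      Module.finrank T M * Module.length 𝒪 (𝒪 ⧸ congIdeal π) := by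
  haveI : Nontrivial T := by
    refine ⟨⟨0, 1, fun h => ?_⟩⟩
    have := congrArg π h
    rw [map_zero, map_one] at this
    exact zero_ne_one this
  exact length_cong_tors_eq π (Module.finBasis T M).equivFun hadj (bijective_of_right_perfect hperf)

/-- **HS6-b**, in the shape of helper2's upper bound `N3.length_cong_tors_le` : if moreover `T` is torsion free and
`η ≠ 0` then `length (M ⧸ (M[𝔭] ⊔ M[𝔭]^⊥)) = rank_𝒪 M[𝔭] * length (𝒪 ⧸ η)`. -/
theorem length_cong_tors_eq_finrank [Module.Free T M] [Module.Finite T M] [Module.IsTorsionFree 𝒪 T]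
    (hperf : ∀ f : M →ₗ[𝒪] 𝒪, ∃ m, ∀ x, B x m = f x)
    (hadj : ∀ (t : T) (x y : M), B (t • x) y = B x (t • y)) (π : T →ₐ[𝒪] 𝒪)
    (hη : congIdeal π ≠ ⊥) :
    Module.length 𝒪 (M ⧸ ((tors (RingHom.ker (π : T →+* 𝒪)) : Submodule 𝒪 M) ⊔
      rorth B (tors (RingHom.ker (π : T →+* 𝒪)) : Submodule 𝒪 M))) =
      Module.finrank 𝒪 (tors (RingHom.ker (π : T →+* 𝒪)) : Submodule 𝒪 M) *
        Module.length 𝒪 (𝒪 ⧸ congIdeal π) := by
  haveI : Nontrivial T := by
    refine ⟨⟨0, 1, fun h => ?_⟩⟩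
    have := congrArg π h
    rw [map_zero, map_one] at this
    exact zero_ne_one this
  rw [finrank_tors_eq π (Module.finBasis T M).equivFun hη]
  exact length_cong_tors_eq π (Module.finBasis T M).equivFun hadj (bijective_of_right_perfect hperf)

end Final

/-! ### restriction to the image of a self-adjoint idempotent -/

section Idem

variable {𝒪 : Type*} [CommRing 𝒪] [IsDomain 𝒪] [IsPrincipalIdealRing 𝒪]
  {M : Type*} [AddCommGroup M] [Module 𝒪 M]
  (B : M →ₗ[𝒪] M →ₗ[𝒪] 𝒪) (ε : M →ₗ[𝒪] M)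

/-- the restriction of the pairing to a submodule -/
def resForm (M₁ : Submodule 𝒪 M) : M₁ →ₗ[𝒪] M₁ →ₗ[𝒪] 𝒪 :=
  (B.comp M₁.subtype).compl₂ M₁.subtype

@[simp] theorem resForm_apply (M₁ : Submodule 𝒪 M) (x y : M₁) :
    resForm B M₁ x y = B (x : M) (y : M) := rfl

variable {B ε}

/-- the restriction of a right-perfect pairing to the image of a self-adjoint idempotent is right-perfect -/
theorem resForm_right_perfect (hε : ∀ x, ε (ε x) = ε x) (hadj : ∀ x y, B (ε x) y = B x (ε y))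
    (hperf : ∀ f : M →ₗ[𝒪] 𝒪, ∃ m, ∀ x, B x m = f x)
    (f : LinearMap.range ε →ₗ[𝒪] 𝒪) : ∃ m : LinearMap.range ε, ∀ x, resForm B (LinearMap.range ε) x m = f x := by
  obtain ⟨m, hm⟩ := hperf (f ∘ₗ ε.rangeRestrict)
  refine ⟨⟨ε m, m, rfl⟩, ?_⟩
  rintro ⟨_, x, rfl⟩
  rw [resForm_apply]
  show B (ε x) (ε m) = _
  rw [← hadj, hε, hm]
  show f (ε.rangeRestrict (ε x)) = _
  congr 1
  apply Subtype.ext
  exact hε x

/-- the congruence module of `Λ ⊆ ε M` computed in `M` and in `ε M` -/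
theorem length_cong_idem (hε : ∀ x, ε (ε x) = ε x) (hadj : ∀ x y, B (ε x) y = B x (ε y))
    (Λ : Submodule 𝒪 M) (hΛ : Λ ≤ LinearMap.range ε) :
    Module.length 𝒪 (M ⧸ (Λ ⊔ rorth B Λ)) =
      Module.length 𝒪 (LinearMap.range ε ⧸
        (Λ.comap (LinearMap.range ε).subtype ⊔
          rorth (resForm B (LinearMap.range ε)) (Λ.comap (LinearMap.range ε).subtype))) := by
  have hfix : ∀ x ∈ Λ, ε x = x := by
    intro x hx
    obtain ⟨y, rfl⟩ := hΛ hx
    exact hε y
  -- `m ∈ Λ^⊥ ↔ ε m ∈ Λ^⊥`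
  have h1 : ∀ m, m ∈ rorth B Λ ↔ ε m ∈ rorth B Λ := by
    intro m
    rw [mem_rorth, mem_rorth]
    refine forall₂_congr fun x hx => ?_
    rw [← hadj, hfix x hx]
  have h2 : ∀ m : LinearMap.range ε,
      m ∈ rorth (resForm B (LinearMap.range ε)) (Λ.comap (LinearMap.range ε).subtype) ↔
        (m : M) ∈ rorth B Λ := by
    intro m
    rw [mem_rorth, mem_rorth]
    constructor
    · intro h x hx
      exact h ⟨x, hΛ hx⟩ hx
    · intro h x hx
      exact h x hx
  have hsurj : Function.Surjective ε.rangeRestrict := LinearMap.surjective_rangeRestrict ε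
  have hcomap : (Λ.comap (LinearMap.range ε).subtype ⊔
      rorth (resForm B (LinearMap.range ε)) (Λ.comap (LinearMap.range ε).subtype)).comap
        ε.rangeRestrict = Λ ⊔ rorth B Λ := by
    ext m
    rw [Submodule.mem_comap]
    constructor
    · intro h
      obtain ⟨a, ha, z, hz, haz⟩ := Submodule.mem_sup.mp h
      have h3 : ε m = (a : M) + (z : M) := by
        have := congrArg (Subtype.val) haz
        exact this.symm
      have h4 : m = (a : M) + ((z : M) + (m - ε m)) := by rw [h3]; abel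
      rw [h4]
      have ha' : (a : M) ∈ Λ := ha
      apply Submodule.add_mem_sup ha'
      apply Submodule.add_mem _ ((h2 z).mp hz)
      rw [h1, map_sub, hε, sub_self]
      exact Submodule.zero_mem _
    · intro h
      obtain ⟨a, ha, z, hz, rfl⟩ := Submodule.mem_sup.mp h
      rw [map_add]
      apply Submodule.add_mem_sup
      · show (ε.rangeRestrict a : M) ∈ Λ
        show ε a ∈ Λ
        rw [hfix a ha]; exact ha
      · rw [h2]
        show ε z ∈ rorth B Λ
        exact (h1 z).mp hz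
  have e1 := Submodule.quotEquivOfEq _ _ hcomap.symm
  -- the induced equivalence of quotients
  set S₁ := (Λ.comap (LinearMap.range ε).subtype ⊔
      rorth (resForm B (LinearMap.range ε)) (Λ.comap (LinearMap.range ε).subtype)) with hS₁
  let g : M →ₗ[𝒪] (LinearMap.range ε ⧸ S₁) := S₁.mkQ ∘ₗ ε.rangeRestrict
  have hg : Function.Surjective g := (Submodule.mkQ_surjective _).comp hsurj
  have hker : LinearMap.ker g = S₁.comap ε.rangeRestrict := by
    ext m
    rw [LinearMap.mem_ker, Submodule.mem_comap]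
    show S₁.mkQ (ε.rangeRestrict m) = 0 ↔ _
    rw [Submodule.mkQ_apply, Submodule.Quotient.mk_eq_zero]
  have e2 := g.quotKerEquivOfSurjective hg
  rw [← e2.length_eq]
  exact (Submodule.quotEquivOfEq _ _ (by rw [hker, hcomap])).length_eq

end Idem

end Fermat.Agent.S59lib.HS6
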